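/-
S41 / [PRES] second seat (helper43): crossed homomorphisms from a presentation.

Abstract setting: a group `G` with two elements `s u` such that `G` has the universal property of
`⟨s, u | s⁴ = 1, s² = u³⟩` (for `G = SL(2,ℤ)`: `s = S`, `u = S * T` or `T * S`; this is the
content of the leaf [PRES]).  For every `G`-module `M` (written additively) and `α β : M` with
`(1 + s) α = (1 + u + u²) β` and `(1 + s²)(1 + s) α = 0` there is a unique crossed homomorphism
(`z (g h) = z g + g • z h`) with `z s = α`, `z u = β`.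

Proof: lift `s ↦ (α, s)`, `u ↦ (β, u)` to the semidirect product `M ⋊ G` (own small
implementation `Semi M G`), and read off the first component.
-/
import Mathlib

set_option autoImplicit false

namespace Fermat.Agent.S41.Pres43

universe u v w

/-- `G` together with `s u : G` has the universal property of `⟨s, u | s⁴ = 1, s² = u³⟩`
with respect to groups in `Type w`. -/
structure HasPres {G : Type u} [Group G] (s t : G) : Prop where
  rel4 : s ^ 4 = 1
  rel : s ^ 2 = t ^ 3
  gen : Subgroup.closure {s, t} = ⊤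
  lift : ∀ (H : Type w) [Group H] (a b : H), a ^ 4 = 1 → a ^ 2 = b ^ 3 →
    ∃ f : G →* H, f s = a ∧ f t = b

/-- `G` together with `s t : G` has the universal property of `⟨s, t | s² = 1, t³ = 1⟩`
(the free product `C₂ * C₃`; for `G = PSL(2,ℤ)`) with respect to groups in `Type w`. -/
structure HasPres23 {G : Type u} [Group G] (s t : G) : Prop where
  rel2 : s ^ 2 = 1
  rel3 : t ^ 3 = 1
  gen : Subgroup.closure {s, t} = ⊤
  lift : ∀ (H : Type w) [Group H] (a b : H), a ^ 2 = 1 → b ^ 3 = 1 →
    ∃ f : G →* H, f s = a ∧ f t = b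

/-- the semidirect product `M ⋊ G` for an additively written `G`-module `M` -/
@[ext] structure Semi (M : Type v) (G : Type u) where
  left : M
  right : G

namespace Semi

variable {M : Type v} {G : Type u} [AddCommGroup M] [Group G] [DistribMulAction G M]

set_option linter.unusedSectionVars false

instance : Mul (Semi M G) := ⟨fun a b => ⟨a.left + a.right • b.left, a.right * b.right⟩⟩
instance : One (Semi M G) := ⟨⟨0, 1⟩⟩
instance : Inv (Semi M G) := ⟨fun a => ⟨-(a.right⁻¹ • a.left), a.right⁻¹⟩⟩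

@[simp] lemma mul_left (a b : Semi M G) : (a * b).left = a.left + a.right • b.left := rfl
@[simp] lemma mul_right (a b : Semi M G) : (a * b).right = a.right * b.right := rfl
@[simp] lemma one_left : (1 : Semi M G).left = 0 := rfl
@[simp] lemma one_right : (1 : Semi M G).right = 1 := rfl
@[simp] lemma inv_left (a : Semi M G) : a⁻¹.left = -(a.right⁻¹ • a.left) := rfl
@[simp] lemma inv_right (a : Semi M G) : a⁻¹.right = a.right⁻¹ := rfl

instance : Group (Semi M G) where
  mul_assoc a b c := by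
    ext
    · simp [smul_add, mul_smul, add_assoc]
    · simp [mul_assoc]
  one_mul a := by
    ext
    · simp
    · simp
  mul_one a := by
    ext
    · simp
    · simp
  inv_mul_cancel a := by
    ext
    · simp
    · simp

/-- projection to `G` -/
def rightHom : Semi M G →* G where
  toFun a := a.right
  map_one' := rfl
  map_mul' _ _ := rfl

@[simp] lemma rightHom_apply (a : Semi M G) : rightHom a = a.right := rfl

lemma mk_sq (α : M) (g : G) :
    (⟨α, g⟩ : Semi M G) ^ 2 = ⟨α + g • α, g ^ 2⟩ := by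
  rw [pow_two, pow_two]
  rfl

lemma mk_cube (β : M) (g : G) :
    (⟨β, g⟩ : Semi M G) ^ 3 = ⟨β + g • β + g • g • β, g ^ 3⟩ := by
  rw [pow_succ, mk_sq]
  ext
  · show β + g • β + (g ^ 2) • β = β + g • β + g • g • β
    rw [pow_two, mul_smul]
  · show g ^ 2 * g = g ^ 3
    rw [← pow_succ]

lemma mk_pow_four (α : M) (g : G) :
    (⟨α, g⟩ : Semi M G) ^ 4 = ⟨(α + g • α) + (g * g) • (α + g • α), g ^ 4⟩ := by
  have : (⟨α, g⟩ : Semi M G) ^ 4 = ((⟨α, g⟩ : Semi M G) ^ 2) ^ 2 := by
    rw [← pow_mul]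
  rw [this, mk_sq, mk_sq]
  ext
  · show (α + g • α) + (g ^ 2) • (α + g • α) = (α + g • α) + (g * g) • (α + g • α)
    rw [pow_two]
  · show (g ^ 2) ^ 2 = g ^ 4
    rw [← pow_mul]

end Semi

section cocycle

variable {G : Type u} [Group G] {M : Type v} [AddCommGroup M] [DistribMulAction G M]

/-- crossed homomorphisms `G → M` -/
def IsCrossed (z : G → M) : Prop := ∀ g h : G, z (g * h) = z g + g • z h

lemma IsCrossed.map_one {z : G → M} (hz : IsCrossed z) : z 1 = 0 := by
  have h := hz 1 1
  rw [one_mul, one_smul] at h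
  exact (add_eq_left.mp h.symm)

lemma IsCrossed.map_inv {z : G → M} (hz : IsCrossed z) (g : G) : z g⁻¹ = -(g⁻¹ • z g) := by
  have h := hz g⁻¹ g
  rw [inv_mul_cancel, hz.map_one] at h
  exact eq_neg_of_add_eq_zero_left h.symm

/-- two crossed homomorphisms which agree on a generating set are equal -/
lemma IsCrossed.ext_of_closure {z z' : G → M} (hz : IsCrossed z) (hz' : IsCrossed z')
    {X : Set G} (hX : Subgroup.closure X = ⊤) (h : ∀ x ∈ X, z x = z' x) : z = z' := by
  funext g
  have hg : g ∈ Subgroup.closure X := by rw [hX]; trivial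
  induction hg using Subgroup.closure_induction with
  | mem x hx => exact h x hx
  | one => rw [hz.map_one, hz'.map_one]
  | mul x y _ _ hx hy => rw [hz, hz', hx, hy]
  | inv x _ hx => rw [hz.map_inv, hz'.map_inv, hx]

variable {s t : G}

/-- a homomorphism to the semidirect product lifting `s ↦ (α, s)`, `t ↦ (β, t)` gives the unique
crossed homomorphism with `z s = α`, `z t = β`. -/
theorem existsUnique_crossed_of_hom (hgen : Subgroup.closure {s, t} = ⊤) (α β : M)
    (f : G →* Semi M G) (hfs : f s = ⟨α, s⟩) (hft : f t = ⟨β, t⟩) :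
    ∃! z : G → M, IsCrossed z ∧ z s = α ∧ z t = β := by
  -- the second component of `f` is the identity
  have hid : (Semi.rightHom (M := M) (G := G)).comp f = MonoidHom.id G := by
    apply MonoidHom.eq_of_eqOn_dense hgen
    intro x hx
    rcases hx with rfl | hx
    · show (f x).right = x
      rw [hfs]
    · rw [Set.mem_singleton_iff] at hx
      subst hx
      show (f x).right = x
      rw [hft]
  have hright : ∀ g, (f g).right = g := fun g => DFunLike.congr_fun hid g
  have hz0 : IsCrossed (fun g => (f g).left) := by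
    intro g h
    show (f (g * h)).left = (f g).left + g • (f h).left
    rw [map_mul, Semi.mul_left, hright]
  refine ⟨fun g => (f g).left, ⟨hz0, ?_, ?_⟩, ?_⟩
  · show (f s).left = α
    rw [hfs]
  · show (f t).left = β
    rw [hft]
  · rintro z ⟨hz, hzs, hzt⟩
    apply hz.ext_of_closure hz0 hgen
    intro x hx
    rcases hx with rfl | hx
    · show z x = (f x).left
      rw [hzs, hfs]
    · rw [Set.mem_singleton_iff] at hx
      subst hx
      show z x = (f x).left
      rw [hzt, hft]

/-- **Crossed homomorphisms from the presentation.** -/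
theorem existsUnique_crossed (hP : HasPres.{u, max u v} s t) (α β : M)
    (h1 : α + s • α = β + t • β + t • t • β)
    (h2 : (α + s • α) + (s * s) • (α + s • α) = 0) :
    ∃! z : G → M, IsCrossed z ∧ z s = α ∧ z t = β := by
  have ha4 : (⟨α, s⟩ : Semi M G) ^ 4 = 1 := by
    rw [Semi.mk_pow_four, h2, hP.rel4]
    rfl
  have hab : (⟨α, s⟩ : Semi M G) ^ 2 = (⟨β, t⟩ : Semi M G) ^ 3 := by
    rw [Semi.mk_sq, Semi.mk_cube, h1, hP.rel]
  obtain ⟨f, hfs, hft⟩ := hP.lift (Semi M G) ⟨α, s⟩ ⟨β, t⟩ ha4 hab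
  exact existsUnique_crossed_of_hom hP.gen α β f hfs hft

/-- special case: `(1 + s) α = 0` and `(1 + t + t²) β = 0`. -/
theorem existsUnique_crossed_of_eq_zero (hP : HasPres.{u, max u v} s t) (α β : M)
    (hα : α + s • α = 0) (hβ : β + t • β + t • t • β = 0) :
    ∃! z : G → M, IsCrossed z ∧ z s = α ∧ z t = β := by
  apply existsUnique_crossed hP α β
  · rw [hα, hβ]
  · rw [hα, smul_zero, add_zero]

/-- helper84's (H-COC): if `s²` acts trivially, every `m` gives a crossed homomorphism with
`z s = s • m - m` and `z t = 0`. -/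
theorem existsUnique_crossed_sub (hP : HasPres.{u, max u v} s t)
    (hss : ∀ m : M, (s * s) • m = m) (m : M) :
    ∃! z : G → M, IsCrossed z ∧ z s = s • m - m ∧ z t = 0 := by
  apply existsUnique_crossed_of_eq_zero hP
  · rw [smul_sub, ← mul_smul, hss]
    abel
  · simp

/-- crossed homomorphisms for the `C₂ * C₃` presentation -/
theorem existsUnique_crossed23 (hP : HasPres23.{u, max u v} s t) (α β : M)
    (hα : α + s • α = 0) (hβ : β + t • β + t • t • β = 0) :
    ∃! z : G → M, IsCrossed z ∧ z s = α ∧ z t = β := by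
  have ha2 : (⟨α, s⟩ : Semi M G) ^ 2 = 1 := by
    rw [Semi.mk_sq, hα, hP.rel2]
    rfl
  have hb3 : (⟨β, t⟩ : Semi M G) ^ 3 = 1 := by
    rw [Semi.mk_cube, hβ, hP.rel3]
    rfl
  obtain ⟨f, hfs, hft⟩ := hP.lift (Semi M G) ⟨α, s⟩ ⟨β, t⟩ ha2 hb3
  exact existsUnique_crossed_of_hom hP.gen α β f hfs hft

/-- (H-COC) for the `C₂ * C₃` presentation -/
theorem existsUnique_crossed23_sub (hP : HasPres23.{u, max u v} s t) (m : M) :
    ∃! z : G → M, IsCrossed z ∧ z s = s • m - m ∧ z t = 0 := by
  apply existsUnique_crossed23 hP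
  · rw [smul_sub, ← mul_smul, ← pow_two, hP.rel2, one_smul]
    abel
  · simp

end cocycle

section explicit

variable {G : Type u} [Group G] {M : Type v} [AddCommGroup M] {s t : G}

/-- a `DistribMulAction` from an explicit action by additive endomorphisms -/
@[reducible] def distribOfAct (act : G → M →+ M) (h1 : ∀ m, act 1 m = m)
    (hmul : ∀ g h m, act (g * h) m = act g (act h m)) : DistribMulAction G M where
  smul g m := act g m
  one_smul := h1
  mul_smul := hmul
  smul_zero g := map_zero (act g)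
  smul_add g := map_add (act g)

/-- version with an explicit action `act : G → M →+ M` (no instance needed) -/
theorem existsUnique_crossed_act (hP : HasPres.{u, max u v} s t) (act : G → M →+ M)
    (h1 : ∀ m, act 1 m = m) (hmul : ∀ g h m, act (g * h) m = act g (act h m)) (α β : M)
    (hα : α + act s α = 0) (hβ : β + act t β + act t (act t β) = 0) :
    ∃! z : G → M, (∀ g h, z (g * h) = z g + act g (z h)) ∧ z s = α ∧ z t = β := by
  let _ : DistribMulAction G M := distribOfAct act h1 hmul
  exact existsUnique_crossed_of_eq_zero hP α β hα hβ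

/-- (H-COC) with an explicit action -/
theorem existsUnique_crossed_act_sub (hP : HasPres.{u, max u v} s t) (act : G → M →+ M)
    (h1 : ∀ m, act 1 m = m) (hmul : ∀ g h m, act (g * h) m = act g (act h m))
    (hss : ∀ m, act (s * s) m = m) (m : M) :
    ∃! z : G → M, (∀ g h, z (g * h) = z g + act g (z h)) ∧ z s = act s m - m ∧ z t = 0 := by
  let _ : DistribMulAction G M := distribOfAct act h1 hmul
  exact existsUnique_crossed_sub hP hss m

end explicit

section functions

variable {G : Type u} [Group G] {Ω : Type v} [MulAction G Ω] {R : Type w} [AddCommGroup R]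
  {s t : G}

/-- the action of `G` on functions `Ω → R`: `(g • m) ω = m (g⁻¹ • ω)` -/
def actFun (g : G) : (Ω → R) →+ (Ω → R) where
  toFun m ω := m (g⁻¹ • ω)
  map_zero' := rfl
  map_add' _ _ := rfl

@[simp] lemma actFun_apply (g : G) (m : Ω → R) (ω : Ω) : actFun g m ω = m (g⁻¹ • ω) := rfl

/-- crossed homomorphisms with values in functions on a `G`-set, in the literal shape used by
the PD leaves: `z (g * h) ω = z g ω + z h (g⁻¹ • ω)`. -/
theorem existsUnique_crossed_fun (hP : HasPres.{u, max u v w} s t) (α β : Ω → R)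
    (hα : ∀ ω, α ω + α (s⁻¹ • ω) = 0)
    (hβ : ∀ ω, β ω + β (t⁻¹ • ω) + β (t⁻¹ • t⁻¹ • ω) = 0) :
    ∃! z : G → Ω → R, (∀ g h ω, z (g * h) ω = z g ω + z h (g⁻¹ • ω)) ∧ z s = α ∧ z t = β := by
  have h := existsUnique_crossed_act (M := Ω → R) hP (actFun (Ω := Ω) (R := R))
    (fun m => by funext ω; simp) (fun g h m => by funext ω; simp [mul_smul]) α β
    (by funext ω; exact hα ω) (by funext ω; exact hβ ω)
  obtain ⟨z, ⟨hz, hzs, hzt⟩, huniq⟩ := h
  refine ⟨z, ⟨fun g h ω => ?_, hzs, hzt⟩, ?_⟩
  · have := congrFun (hz g h) ω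
    simpa using this
  · rintro z' ⟨hz', hzs', hzt'⟩
    apply huniq
    refine ⟨fun g h => ?_, hzs', hzt'⟩
    funext ω
    simpa using hz' g h ω

/-- (H-COC), literal shape: if `s²` acts trivially on `Ω`, for every `m : Ω → R` there is a unique
crossed homomorphism with `z s ω = m (s⁻¹ • ω) - m ω` and `z t = 0`. -/
theorem existsUnique_crossed_fun_sub (hP : HasPres.{u, max u v w} s t)
    (hss : ∀ ω : Ω, (s * s) • ω = ω) (m : Ω → R) :
    ∃! z : G → Ω → R, (∀ g h ω, z (g * h) ω = z g ω + z h (g⁻¹ • ω)) ∧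
      (∀ ω, z s ω = m (s⁻¹ • ω) - m ω) ∧ z t = 0 := by
  have hss' : ∀ ω : Ω, s⁻¹ • s⁻¹ • ω = ω := by
    intro ω
    have := hss (s⁻¹ • s⁻¹ • ω)
    rw [mul_smul, smul_inv_smul, smul_inv_smul] at this
    exact this.symm
  have h := existsUnique_crossed_fun (R := R) hP (fun ω => m (s⁻¹ • ω) - m ω) (0 : Ω → R)
    (fun ω => by rw [hss']; abel) (fun ω => by simp)
  obtain ⟨z, ⟨hz, hzs, hzt⟩, huniq⟩ := h
  refine ⟨z, ⟨hz, fun ω => by rw [hzs], hzt⟩, ?_⟩
  rintro z' ⟨hz', hzs', hzt'⟩
  exact huniq z' ⟨hz', funext hzs', hzt'⟩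

/-- `C₂ * C₃` version of `existsUnique_crossed_fun`. -/
theorem existsUnique_crossed23_fun (hP : HasPres23.{u, max u v w} s t) (α β : Ω → R)
    (hα : ∀ ω, α ω + α (s⁻¹ • ω) = 0)
    (hβ : ∀ ω, β ω + β (t⁻¹ • ω) + β (t⁻¹ • t⁻¹ • ω) = 0) :
    ∃! z : G → Ω → R, (∀ g h ω, z (g * h) ω = z g ω + z h (g⁻¹ • ω)) ∧ z s = α ∧ z t = β := by
  let _ : DistribMulAction G (Ω → R) := distribOfAct (actFun (Ω := Ω) (R := R))
    (fun m => by funext ω; simp) (fun g h m => by funext ω; simp [mul_smul])
  have h := existsUnique_crossed23 (M := Ω → R) hP α β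
    (by funext ω; exact hα ω) (by funext ω; exact hβ ω)
  obtain ⟨z, ⟨hz, hzs, hzt⟩, huniq⟩ := h
  refine ⟨z, ⟨fun g h ω => ?_, hzs, hzt⟩, ?_⟩
  · exact congrFun (hz g h) ω
  · rintro z' ⟨hz', hzs', hzt'⟩
    apply huniq
    refine ⟨fun g h => ?_, hzs', hzt'⟩
    funext ω
    exact hz' g h ω

/-- `C₂ * C₃` version of (H-COC). -/
theorem existsUnique_crossed23_fun_sub (hP : HasPres23.{u, max u v w} s t) (m : Ω → R) :
    ∃! z : G → Ω → R, (∀ g h ω, z (g * h) ω = z g ω + z h (g⁻¹ • ω)) ∧
      (∀ ω, z s ω = m (s⁻¹ • ω) - m ω) ∧ z t = 0 := by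
  have hss' : ∀ ω : Ω, s⁻¹ • s⁻¹ • ω = ω := by
    intro ω
    rw [← mul_smul, ← mul_inv_rev, ← pow_two, hP.rel2, inv_one, one_smul]
  have h := existsUnique_crossed23_fun (R := R) hP (fun ω => m (s⁻¹ • ω) - m ω) (0 : Ω → R)
    (fun ω => by rw [hss']; abel) (fun ω => by simp)
  obtain ⟨z, ⟨hz, hzs, hzt⟩, huniq⟩ := h
  refine ⟨z, ⟨hz, fun ω => by rw [hzs], hzt⟩, ?_⟩
  rintro z' ⟨hz', hzs', hzt'⟩
  exact huniq z' ⟨hz', funext hzs', hzt'⟩

end functions

end Fermat.Agent.S41.Pres43
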