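/-
S41 / [PRES] second seat (helper43): the `SL(2,ℤ)` / `PSL(2,ℤ)` instances of `HasPres` /
`HasPres23`, reduced to the single lifting statement (P1)/(P2) of the leaf [PRES]
(`∀ H a b, a⁴ = 1 → a² = b³ → ∃ f : SL(2,ℤ) →* H, f S = a ∧ f (S * T) = b`).
-/
import Mathlib
import Fermat.Agent.S41.Pres43.Cocycle

set_option autoImplicit false

namespace Fermat.Agent.S41.Pres43

open Matrix ModularGroup
open scoped MatrixGroups

universe w

lemma S_pow_four : (S : SL(2, ℤ)) ^ 4 = 1 := by decide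

lemma S_sq_eq_ST_cube : (S : SL(2, ℤ)) ^ 2 = (S * T) ^ 3 := by decide

lemma S_sq_eq_TS_cube : (S : SL(2, ℤ)) ^ 2 = (T * S) ^ 3 := by decide

lemma closure_S_ST : Subgroup.closure {S, S * T} = (⊤ : Subgroup SL(2, ℤ)) := by
  rw [eq_top_iff, ← SpecialLinearGroup.SL2Z_generators, Subgroup.closure_le]
  intro x hx
  have hS : (S : SL(2, ℤ)) ∈ Subgroup.closure {S, S * T} :=
    Subgroup.subset_closure (Set.mem_insert _ _)
  have hST : (S * T : SL(2, ℤ)) ∈ Subgroup.closure {S, S * T} :=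
    Subgroup.subset_closure (Set.mem_insert_of_mem _ rfl)
  rcases hx with rfl | hx
  · exact hS
  · rw [Set.mem_singleton_iff] at hx
    subst hx
    have := mul_mem (inv_mem hS) hST
    simpa using this

lemma closure_S_TS : Subgroup.closure {S, T * S} = (⊤ : Subgroup SL(2, ℤ)) := by
  rw [eq_top_iff, ← SpecialLinearGroup.SL2Z_generators, Subgroup.closure_le]
  intro x hx
  have hS : (S : SL(2, ℤ)) ∈ Subgroup.closure {S, T * S} :=
    Subgroup.subset_closure (Set.mem_insert _ _)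
  have hTS : (T * S : SL(2, ℤ)) ∈ Subgroup.closure {S, T * S} :=
    Subgroup.subset_closure (Set.mem_insert_of_mem _ rfl)
  rcases hx with rfl | hx
  · exact hS
  · rw [Set.mem_singleton_iff] at hx
    subst hx
    have := mul_mem hTS (inv_mem hS)
    simpa using this

/-- `SL(2,ℤ)` has the presentation `⟨S, S * T | S⁴ = 1, S² = (S T)³⟩`, given the lifting
statement of [PRES]. -/
theorem hasPres_S_ST
    (hlift : ∀ (H : Type w) [Group H] (a b : H), a ^ 4 = 1 → a ^ 2 = b ^ 3 →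
      ∃ f : SL(2, ℤ) →* H, f S = a ∧ f (S * T) = b) :
    HasPres.{0, w} (S : SL(2, ℤ)) (S * T) :=
  ⟨S_pow_four, S_sq_eq_ST_cube, closure_S_ST, hlift⟩

/-- the same for the pair `(S, T * S)`. -/
theorem hasPres_S_TS
    (hlift : ∀ (H : Type w) [Group H] (a b : H), a ^ 4 = 1 → a ^ 2 = b ^ 3 →
      ∃ f : SL(2, ℤ) →* H, f S = a ∧ f (T * S) = b) :
    HasPres.{0, w} (S : SL(2, ℤ)) (T * S) :=
  ⟨S_pow_four, S_sq_eq_TS_cube, closure_S_TS, hlift⟩

/-- passing from `(S, T * S)` to `(S, S * T)`: conjugate by `S`. -/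
theorem hasPres_S_ST_of_TS (h : HasPres.{0, w} (S : SL(2, ℤ)) (T * S)) :
    HasPres.{0, w} (S : SL(2, ℤ)) (S * T) := by
  refine hasPres_S_ST ?_
  intro H _ a b ha hab
  -- `S * T = S * (T * S) * S⁻¹`
  have hab' : a ^ 2 = (a⁻¹ * b * a) ^ 3 := by
    have : (a⁻¹ * b * a) ^ 3 = a⁻¹ * b ^ 3 * a := by
      simp only [pow_succ, pow_zero, one_mul, mul_assoc, mul_inv_cancel_left]
    rw [this, ← hab]
    group
  obtain ⟨f, hfs, hft⟩ := h.lift H a (a⁻¹ * b * a) ha hab'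
  refine ⟨f, hfs, ?_⟩
  have : (S * T : SL(2, ℤ)) = S * (T * S) * S⁻¹ := by group
  rw [this, map_mul, map_mul, map_inv, hfs, hft]
  group

section PSL

/-- the image of `g` in `PSL(2,ℤ)` -/
abbrev toPSL (g : SL(2, ℤ)) : PSL(2, ℤ) := QuotientGroup.mk g

lemma S_sq_mem_center : (S : SL(2, ℤ)) ^ 2 ∈ Subgroup.center SL(2, ℤ) := by
  rw [Matrix.SpecialLinearGroup.mem_center_iff]
  refine ⟨-1, by simp, ?_⟩
  ext i j
  fin_cases i <;> fin_cases j <;> simp [pow_two, ModularGroup.S]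

/-- the centre of `SL(2,ℤ)` is `{1, S²}` -/
lemma eq_one_or_eq_S_sq_of_mem_center {g : SL(2, ℤ)} (hg : g ∈ Subgroup.center SL(2, ℤ)) :
    g = 1 ∨ g = S ^ 2 := by
  rw [Matrix.SpecialLinearGroup.mem_center_iff] at hg
  obtain ⟨r, hr, hrg⟩ := hg
  have hr2 : r ^ 2 = 1 := by simpa using hr
  have hr' : r = 1 ∨ r = -1 := sq_eq_one_iff.mp hr2
  rcases hr' with rfl | rfl
  · left
    apply Subtype.ext
    rw [← hrg]
    simp
  · right
    apply Subtype.ext
    rw [← hrg]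
    ext i j
    fin_cases i <;> fin_cases j <;> simp [pow_two, ModularGroup.S]

lemma toPSL_S_sq : (toPSL S) ^ 2 = 1 := by
  show ((S ^ 2 : SL(2, ℤ)) : PSL(2, ℤ)) = 1
  exact (QuotientGroup.eq_one_iff _).mpr S_sq_mem_center

lemma toPSL_ST_cube : (toPSL (S * T)) ^ 3 = 1 := by
  show (((S * T) ^ 3 : SL(2, ℤ)) : PSL(2, ℤ)) = 1
  rw [← S_sq_eq_ST_cube]
  exact (QuotientGroup.eq_one_iff _).mpr S_sq_mem_center

lemma closure_toPSL : Subgroup.closure {toPSL S, toPSL (S * T)} = (⊤ : Subgroup PSL(2, ℤ)) := by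
  have h := MonoidHom.map_closure (QuotientGroup.mk' (Subgroup.center SL(2, ℤ))) {S, S * T}
  rw [closure_S_ST, Subgroup.map_top_of_surjective _ (QuotientGroup.mk'_surjective _)] at h
  rw [h]
  congr 1
  simp [Set.image_insert_eq]

/-- `PSL(2,ℤ) = C₂ * C₃` on the images of `S`, `S * T`, given the presentation of `SL(2,ℤ)`. -/
theorem hasPres23_toPSL (h : HasPres.{0, w} (S : SL(2, ℤ)) (S * T)) :
    HasPres23.{0, w} (toPSL S) (toPSL (S * T)) := by
  refine ⟨toPSL_S_sq, toPSL_ST_cube, closure_toPSL, ?_⟩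
  intro H _ a b ha hb
  have ha4 : a ^ 4 = 1 := by
    have : a ^ 4 = (a ^ 2) ^ 2 := by rw [← pow_mul]
    rw [this, ha, one_pow]
  obtain ⟨f, hfs, hft⟩ := h.lift H a b ha4 (by rw [ha, hb])
  have hker : Subgroup.center SL(2, ℤ) ≤ f.ker := by
    intro g hg
    rw [MonoidHom.mem_ker]
    rcases eq_one_or_eq_S_sq_of_mem_center hg with rfl | rfl
    · exact map_one f
    · rw [map_pow, hfs, ha]
  refine ⟨QuotientGroup.lift _ f hker, ?_, ?_⟩
  · show QuotientGroup.lift _ f hker (QuotientGroup.mk S) = a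
    rw [QuotientGroup.lift_mk, hfs]
  · show QuotientGroup.lift _ f hker (QuotientGroup.mk (S * T)) = b
    rw [QuotientGroup.lift_mk, hft]

end PSL

end Fermat.Agent.S41.Pres43
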