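/-
S41 / [PRES] (helper43): the presentation of `SL(2,ℤ)` (helper37's landed `Pres37.existsUnique_hom`)
plugged into the abstract crossed-homomorphism theorems of `Pres43.Cocycle`:
unconditional `HasPres` / `HasPres23` instances and the literal (H-COC) shapes for `SL(2,ℤ)`.
-/
import Mathlib
import Fermat.Agent.S41.Pres37.Main
import Fermat.Agent.S41.Pres43.SL2

set_option autoImplicit false

namespace Fermat.Agent.S41.Pres43

open Matrix ModularGroup
open scoped MatrixGroups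

universe v w

/-- `SL(2,ℤ) = ⟨S, S * T | S⁴ = 1, S² = (S T)³⟩` -/
theorem hasPres_SL2_ST : HasPres.{0, w} (S : SL(2, ℤ)) (S * T) :=
  hasPres_S_ST fun _ _ a b ha hab => (Pres37.existsUnique_hom' a b ha hab).exists

/-- `SL(2,ℤ) = ⟨S, T * S | S⁴ = 1, S² = (T S)³⟩` -/
theorem hasPres_SL2_TS : HasPres.{0, w} (S : SL(2, ℤ)) (T * S) :=
  hasPres_S_TS fun _ _ a b ha hab => (Pres37.existsUnique_hom a b ha hab).exists

/-- `PSL(2,ℤ) = C₂ * C₃` on the images of `S` and `S * T` -/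
theorem hasPres23_PSL2 : HasPres23.{0, w} (toPSL S) (toPSL (S * T)) :=
  hasPres23_toPSL hasPres_SL2_ST

lemma S_mul_S : (S : SL(2, ℤ)) * S = -1 := by decide

section sl2

variable {Ω : Type v} [MulAction SL(2, ℤ) Ω] {R : Type w} [AddCommGroup R]

/-- crossed homomorphisms of `SL(2,ℤ)` with values in functions on an `SL(2,ℤ)`-set, prescribed on
`S` and `S * T`. -/
theorem sl2_existsUnique_crossed_fun (α β : Ω → R)
    (hα : ∀ ω, α ω + α ((S : SL(2, ℤ))⁻¹ • ω) = 0)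
    (hβ : ∀ ω, β ω + β ((S * T : SL(2, ℤ))⁻¹ • ω) +
      β ((S * T : SL(2, ℤ))⁻¹ • (S * T : SL(2, ℤ))⁻¹ • ω) = 0) :
    ∃! z : SL(2, ℤ) → Ω → R, (∀ g h ω, z (g * h) ω = z g ω + z h (g⁻¹ • ω)) ∧
      z S = α ∧ z (S * T) = β :=
  existsUnique_crossed_fun hasPres_SL2_ST α β hα hβ

/-- **(H-COC) for `SL(2,ℤ)`**: if `-1` acts trivially on `Ω`, then for every `m : Ω → R` there is a
unique crossed homomorphism `z` with `z S = S • m - m` and `z (S * T) = 0`. -/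
theorem sl2_existsUnique_crossed_fun_sub (hneg : ∀ ω : Ω, (-1 : SL(2, ℤ)) • ω = ω) (m : Ω → R) :
    ∃! z : SL(2, ℤ) → Ω → R, (∀ g h ω, z (g * h) ω = z g ω + z h (g⁻¹ • ω)) ∧
      (∀ ω, z S ω = m ((S : SL(2, ℤ))⁻¹ • ω) - m ω) ∧ z (S * T) = 0 :=
  existsUnique_crossed_fun_sub hasPres_SL2_ST (fun ω => by rw [S_mul_S]; exact hneg ω) m

/-- the same with the order-6 generator `T * S`. -/
theorem sl2_existsUnique_crossed_fun_sub_TS (hneg : ∀ ω : Ω, (-1 : SL(2, ℤ)) • ω = ω)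
    (m : Ω → R) :
    ∃! z : SL(2, ℤ) → Ω → R, (∀ g h ω, z (g * h) ω = z g ω + z h (g⁻¹ • ω)) ∧
      (∀ ω, z S ω = m ((S : SL(2, ℤ))⁻¹ • ω) - m ω) ∧ z (T * S) = 0 :=
  existsUnique_crossed_fun_sub hasPres_SL2_TS (fun ω => by rw [S_mul_S]; exact hneg ω) m

end sl2

section sl2module

variable {M : Type v} [AddCommGroup M] [DistribMulAction SL(2, ℤ) M]

/-- crossed homomorphisms of `SL(2,ℤ)` with values in a module, prescribed on `S` and `S * T`. -/
theorem sl2_existsUnique_crossed (α β : M) (hα : α + (S : SL(2, ℤ)) • α = 0)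
    (hβ : β + (S * T : SL(2, ℤ)) • β + (S * T : SL(2, ℤ)) • (S * T : SL(2, ℤ)) • β = 0) :
    ∃! z : SL(2, ℤ) → M, IsCrossed z ∧ z S = α ∧ z (S * T) = β :=
  existsUnique_crossed_of_eq_zero hasPres_SL2_ST α β hα hβ

end sl2module

end Fermat.Agent.S41.Pres43
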